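import Mathlib

/-!
# Deligne–Serre: definitions

`HasNebentypus k χ f` (transformation law under `Γ₀(M)` with character `χ`) and `SemisimpleTwo ρ`
(every stable line of a two dimensional representation has a stable complement).
-/

set_option autoImplicit false

noncomputable section

open CongruenceSubgroup
open scoped MatrixGroups ModularForm

namespace FLTAgent.DS

/-- `f` transforms under `Γ₀(M)` with character `χ` evaluated at the lower right entry. -/
def HasNebentypus {M : ℕ} (k : ℤ) (χ : DirichletCharacter ℂ M) (f : UpperHalfPlane → ℂ) : Prop :=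
  ∀ γ : SL(2, ℤ), γ ∈ Gamma0 M → f ∣[k] γ = χ ((γ 1 1 : ℤ) : ZMod M) • f

/-- Every stable line has a stable complement. -/
def SemisimpleTwo {G k : Type*} [Group G] [Field k] (ρ : G →* GL (Fin 2) k) : Prop :=
  ∀ v : Fin 2 → k, v ≠ 0 →
    (∀ g : G, ∃ c : k, ((ρ g : GL (Fin 2) k) : Matrix (Fin 2) (Fin 2) k).mulVec v = c • v) →
    ∃ w : Fin 2 → k, (∀ c : k, w ≠ c • v) ∧
      ∀ g : G, ∃ c : k, ((ρ g : GL (Fin 2) k) : Matrix (Fin 2) (Fin 2) k).mulVec w = c • w

end FLTAgent.DS
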