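import Fermat.Agent.DS.Defs

/-!
# Two by two matrices commuting with a nonscalar one

The matrices commuting with a nonscalar `m` are the `x • 1 + y • m`
(`exists_eq_affine_of_commute`), with explicit trace, determinant and discriminant `disc2`; when
the discriminant vanishes the trace zero part squares to zero (`nilPart_mul_self`), which gives
the powers of `m` (`pow_of_sq_zero`).
-/

set_option autoImplicit false

noncomputable section

open Matrix

namespace FLTAgent.DS

variable {k : Type*} [Field k]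

/-- The discriminant of the characteristic polynomial. -/
def disc2 (m : Matrix (Fin 2) (Fin 2) k) : k := m.trace ^ 2 - 4 * m.det

/-- Being a scalar matrix. -/
def IsScalar2 (m : Matrix (Fin 2) (Fin 2) k) : Prop := ∃ c : k, m = c • 1

theorem isScalar2_iff (m : Matrix (Fin 2) (Fin 2) k) :
    IsScalar2 m ↔ m 0 1 = 0 ∧ m 1 0 = 0 ∧ m 0 0 = m 1 1 := by
  constructor
  · rintro ⟨c, rfl⟩
    simp
  · rintro ⟨h01, h10, h⟩
    refine ⟨m 0 0, ?_⟩
    ext i j
    fin_cases i <;> fin_cases j <;> simp [h01, h10, h]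

theorem exists_eq_affine_of_commute {m h : Matrix (Fin 2) (Fin 2) k} (hm : ¬ IsScalar2 m)
    (hc : h * m = m * h) : ∃ x y : k, h = x • 1 + y • m := by
  have e00 := congrFun (congrFun hc 0) 0
  have e01 := congrFun (congrFun hc 0) 1
  have e10 := congrFun (congrFun hc 1) 0
  simp only [Matrix.mul_apply, Fin.sum_univ_two] at e00 e01 e10
  rw [isScalar2_iff] at hm
  by_cases h01 : m 0 1 = 0
  · by_cases h10 : m 1 0 = 0
    · have hd : m 0 0 - m 1 1 ≠ 0 := fun hh => hm ⟨h01, h10, sub_eq_zero.mp hh⟩
      refine ⟨h 0 0 - (h 0 0 - h 1 1) / (m 0 0 - m 1 1) * m 0 0,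
        (h 0 0 - h 1 1) / (m 0 0 - m 1 1), ?_⟩
      have f01 : h 0 1 = 0 := by
        rw [h01] at e01
        have : h 0 1 * (m 0 0 - m 1 1) = 0 := by linear_combination -e01
        exact (mul_eq_zero.mp this).resolve_right hd
      have f10 : h 1 0 = 0 := by
        rw [h10] at e10
        have : h 1 0 * (m 0 0 - m 1 1) = 0 := by linear_combination e10
        exact (mul_eq_zero.mp this).resolve_right hd
      ext i j
      fin_cases i <;> fin_cases j <;> simp [h01, h10, f01, f10]
      field_simp
      ring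
    · refine ⟨h 0 0 - h 1 0 / m 1 0 * m 0 0, h 1 0 / m 1 0, ?_⟩
      ext i j
      fin_cases i <;> fin_cases j <;> simp
      · rw [h01] at e00 ⊢
        have : h 0 1 * m 1 0 = 0 := by linear_combination e00
        simp [(mul_eq_zero.mp this).resolve_right h10]
      · field_simp
      · field_simp
        linear_combination e10
  · refine ⟨h 0 0 - h 0 1 / m 0 1 * m 0 0, h 0 1 / m 0 1, ?_⟩
    ext i j
    fin_cases i <;> fin_cases j <;> simp
    · field_simp
    · field_simp
      linear_combination -e00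
    · field_simp
      linear_combination -e01

theorem commute_of_affine {m : Matrix (Fin 2) (Fin 2) k} (x y x' y' : k) :
    (x • 1 + y • m) * (x' • 1 + y' • m) = (x' • 1 + y' • m) * (x • 1 + y • m) := by
  simp only [mul_add, add_mul, smul_mul_smul_comm, one_mul, mul_one, mul_comm x, mul_comm y]
  abel

theorem trace_affine (m : Matrix (Fin 2) (Fin 2) k) (x y : k) :
    (x • 1 + y • m).trace = 2 * x + y * m.trace := by
  simp [Matrix.trace_fin_two]
  ring

theorem det_affine (m : Matrix (Fin 2) (Fin 2) k) (x y : k) :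
    (x • 1 + y • m).det = x ^ 2 + x * y * m.trace + y ^ 2 * m.det := by
  simp [Matrix.trace_fin_two, Matrix.det_fin_two]
  ring

theorem disc2_affine (m : Matrix (Fin 2) (Fin 2) k) (x y : k) :
    disc2 (x • 1 + y • m) = y ^ 2 * disc2 m := by
  rw [disc2, disc2, trace_affine, det_affine]
  ring

theorem isScalar2_affine {m : Matrix (Fin 2) (Fin 2) k} (hm : ¬ IsScalar2 m) (x y : k) :
    IsScalar2 (x • 1 + y • m) ↔ y = 0 := by
  constructor
  · rw [isScalar2_iff] at hm ⊢
    simp only [Matrix.add_apply, Matrix.smul_apply, Matrix.one_apply, smul_eq_mul]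
    rintro ⟨h01, h10, h⟩
    by_contra hy
    apply hm
    refine ⟨?_, ?_, ?_⟩
    · simpa [hy] using h01
    · simpa [hy] using h10
    · simpa [hy] using h
  · rintro rfl
    exact ⟨x, by simp⟩

theorem disc2_eq_zero_of_isScalar2 {m : Matrix (Fin 2) (Fin 2) k} (h : IsScalar2 m) :
    disc2 m = 0 := by
  obtain ⟨c, rfl⟩ := h
  simp [disc2]
  ring

/-- The trace zero part. -/
def nilPart (m : Matrix (Fin 2) (Fin 2) k) : Matrix (Fin 2) (Fin 2) k :=
  m - (m.trace / 2) • 1

theorem nilPart_add_scalar (m : Matrix (Fin 2) (Fin 2) k) :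
    m = (m.trace / 2) • 1 + nilPart m := by rw [nilPart]; abel

theorem nilPart_mul_self {m : Matrix (Fin 2) (Fin 2) k} (h2 : (2 : k) ≠ 0) (h : disc2 m = 0) :
    nilPart m * nilPart m = 0 := by
  rw [disc2, Matrix.trace_fin_two, Matrix.det_fin_two] at h
  have h4 : (4 : k) ≠ 0 := by
    rw [show (4 : k) = 2 * 2 by norm_num]
    exact mul_ne_zero h2 h2
  ext i j
  fin_cases i <;> fin_cases j <;>
    simp [nilPart, Matrix.mul_apply, Fin.sum_univ_two, Matrix.trace_fin_two] <;> field_simp <;>
    first | ring1 | linear_combination h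

theorem pow_of_sq_zero {R : Type*} [Ring R] [Algebra k R] {N : R} (hN : N * N = 0) (c : k) :
    ∀ n : ℕ, (c • 1 + N) ^ n = c ^ n • 1 + ((n : k) * c ^ (n - 1)) • N
  | 0 => by simp
  | n + 1 => by
    rw [pow_succ, pow_of_sq_zero hN c n]
    cases n with
    | zero => simp
    | succ m =>
      simp only [Nat.add_sub_cancel]
      rw [add_mul, smul_one_mul, smul_mul_assoc, mul_add, mul_smul_comm, mul_one, hN, add_zero,
        smul_add, smul_smul, smul_smul, add_assoc, ← add_smul, ← pow_succ]
      congr 2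
      push_cast
      ring

theorem ne_zero_of_scalar_part {m : Matrix (Fin 2) (Fin 2) k} (h2 : (2 : k) ≠ 0)
    (h : disc2 m = 0) (hdet : m.det ≠ 0) : m.trace / 2 ≠ 0 := by
  intro hh
  rcases div_eq_zero_iff.mp hh with h1 | h1
  · rw [disc2, h1] at h
    have h4 : (4 : k) ≠ 0 := by
      rw [show (4 : k) = 2 * 2 by norm_num]
      exact mul_ne_zero h2 h2
    simp [h4, hdet] at h
  · exact h2 h1

end FLTAgent.DS
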