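import Fermat.Agent.DS.GroupAlg

/-!
# Centralisers in a finite group of matrices

For a faithful `ρ : G → GL₂(k)`: the centralisers `commSub g` of nonscalar elements partition the
nonscalar elements (`fiber_eq`, `card_fiber`), two elements of a torus centraliser with the same
trace and determinant are few (`card_same_charpoly_le`), the stabiliser of such a centraliser is
at most twice as large (`card_stabilizer_le`), and a divisibility form of the class equation
(`card_dvd_sum_of_stabilizer_dvd`). These are the counting tools of `GroupBoundMain`.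
-/

set_option autoImplicit false
set_option linter.unusedSectionVars false

noncomputable section

open scoped Classical Pointwise
open Finset

namespace FLTAgent.DS

variable {G : Type*} [Group G] [Finite G] {k : Type*} [Field k]

/-- Sum of an invariant weight, each value a multiple of the stabiliser's order. -/
theorem card_dvd_sum_of_stabilizer_dvd {Γ X : Type*} [Group Γ] [Finite Γ] [Fintype X]
    [MulAction Γ X] (w : X → ℤ) (hinv : ∀ (g : Γ) (x : X), w (g • x) = w x)
    (hdvd : ∀ x, (Nat.card (MulAction.stabilizer Γ x) : ℤ) ∣ w x) :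
    (Nat.card Γ : ℤ) ∣ ∑ x, w x := by
  rw [← Finset.sum_fiberwise_of_maps_to (s := Finset.univ)
    (t := Finset.univ) (g := fun x : X => (Quotient.mk (MulAction.orbitRel Γ X) x))
    (fun _ _ => Finset.mem_univ _) w]
  refine Finset.dvd_sum fun O _ => ?_
  induction O using Quotient.inductionOn with
  | h x =>
    have hset : (Finset.univ.filter fun y : X =>
        Quotient.mk (MulAction.orbitRel Γ X) y = Quotient.mk (MulAction.orbitRel Γ X) x) =
        (MulAction.orbit Γ x).toFinset := by
      ext y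
      simp only [Finset.mem_filter, Finset.mem_univ, true_and, Set.mem_toFinset, Quotient.eq]
      rfl
    rw [hset]
    rw [Finset.sum_congr rfl (g := fun _ => w x) (fun y hy => by
      obtain ⟨g, rfl⟩ := Set.mem_toFinset.mp hy
      exact hinv g x)]
    rw [Finset.sum_const, nsmul_eq_mul, Set.toFinset_card, ← Nat.card_eq_fintype_card]
    obtain ⟨m, hm⟩ := hdvd x
    refine ⟨m, ?_⟩
    rw [hm, ← mul_assoc, ← Nat.cast_mul]
    congr 1
    norm_cast
    have := MulAction.index_stabilizer Γ x
    rw [← (MulAction.stabilizer Γ x).index_mul_card, this, Nat.card_coe_set_eq]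

variable (ρ : G →* GL (Fin 2) k)

/-- The matrix of an element. -/
def mat (g : G) : Matrix (Fin 2) (Fin 2) k := ((ρ g : GL (Fin 2) k) : Matrix (Fin 2) (Fin 2) k)

theorem mat_mul (g h : G) : mat ρ (g * h) = mat ρ g * mat ρ h := by simp [mat]

theorem mat_one : mat ρ (1 : G) = 1 := by simp [mat]

theorem mat_pow (g : G) (n : ℕ) : mat ρ (g ^ n) = mat ρ g ^ n := by simp [mat]

theorem det_mat_ne_zero (g : G) : (mat ρ g).det ≠ 0 :=
  (Matrix.GeneralLinearGroup.det (ρ g)).ne_zero

/-- The scalar elements. -/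
def scalarSub : Subgroup G where
  carrier := {g | IsScalar2 (mat ρ g)}
  one_mem' := ⟨1, by simp [mat_one]⟩
  mul_mem' := by
    rintro a b ⟨x, hx⟩ ⟨y, hy⟩
    exact ⟨x * y, by rw [mat_mul, hx, hy, smul_mul_smul_comm, one_mul]⟩
  inv_mem' := by
    rintro a ⟨x, hx⟩
    refine ⟨x⁻¹, ?_⟩
    have h0 : x ≠ 0 := by
      rintro rfl
      exact det_mat_ne_zero ρ a (by simp [hx])
    have h1 : mat ρ a⁻¹ * mat ρ a = 1 := by rw [← mat_mul]; simp [mat_one]
    rw [hx, mul_smul_comm, mul_one] at h1
    rw [← h1, smul_smul, inv_mul_cancel₀ h0, one_smul]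

theorem mem_scalarSub {g : G} : g ∈ scalarSub ρ ↔ IsScalar2 (mat ρ g) := Iff.rfl

/-- The commutant of an element inside the group. -/
def commSub (g : G) : Subgroup G := Subgroup.centralizer {g}

variable {ρ}

theorem mem_commSub_iff (hinj : Function.Injective ρ) {g h : G} :
    h ∈ commSub g ↔ mat ρ h * mat ρ g = mat ρ g * mat ρ h := by
  rw [commSub, Subgroup.mem_centralizer_singleton_iff, ← mat_mul, ← mat_mul]
  constructor
  · intro e; rw [e]
  · intro e; exact hinj (Units.ext e)

theorem exists_affine (hinj : Function.Injective ρ) {g h : G} (hg : g ∉ scalarSub ρ)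
    (hh : h ∈ commSub g) : ∃ x y : k, mat ρ h = x • 1 + y • mat ρ g :=
  exists_eq_affine_of_commute hg ((mem_commSub_iff hinj).mp hh)

theorem scalarSub_le_commSub (hinj : Function.Injective ρ) (g : G) :
    scalarSub ρ ≤ commSub g := by
  rintro h ⟨c, hc⟩
  rw [mem_commSub_iff hinj, hc]
  simp

theorem self_mem_commSub (g : G) : g ∈ commSub g := by
  rw [commSub, Subgroup.mem_centralizer_singleton_iff]

theorem commSub_eq_of_mem (hinj : Function.Injective ρ) {g x : G} (hg : g ∉ scalarSub ρ)
    (hx : x ∈ commSub g) (hxs : x ∉ scalarSub ρ) : commSub x = commSub g := by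
  obtain ⟨a, b, hab⟩ := exists_affine hinj hg hx
  ext h
  constructor
  · intro hh
    obtain ⟨c, d, hcd⟩ := exists_affine hinj hxs hh
    rw [mem_commSub_iff hinj, hcd, hab]
    have h' : c • (1 : Matrix (Fin 2) (Fin 2) k) + d • (a • 1 + b • mat ρ g) =
        (c + d * a) • 1 + (d * b) • mat ρ g := by
      rw [smul_add, smul_smul, smul_smul, add_smul]; abel
    rw [h', show mat ρ g = (0 : k) • 1 + (1 : k) • mat ρ g by simp]
    simpa using commute_of_affine (m := mat ρ g) (c + d * a) (d * b) 0 1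
  · intro hh
    obtain ⟨c, d, hcd⟩ := exists_affine hinj hg hh
    rw [mem_commSub_iff hinj, hcd, hab]
    exact commute_of_affine c d a b

theorem disc2_ne_zero_of_mem (hinj : Function.Injective ρ) {g x : G} (hg : g ∉ scalarSub ρ)
    (hx : x ∈ commSub g) (hxs : x ∉ scalarSub ρ) :
    disc2 (mat ρ x) = 0 ↔ disc2 (mat ρ g) = 0 := by
  obtain ⟨a, b, hab⟩ := exists_affine hinj hg hx
  have hb : b ≠ 0 := fun hb => hxs (by
    rw [mem_scalarSub, hab, isScalar2_affine hg]; exact hb)
  rw [hab, disc2_affine]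
  simp [hb]

variable (ρ) in
/-- The commutants of the nonscalar elements. -/
def commSet : Finset (Subgroup G) :=
  haveI := Fintype.ofFinite G
  (Finset.univ.filter fun g : G => g ∉ scalarSub ρ).image commSub

theorem mem_commSet {A : Subgroup G} :
    A ∈ commSet ρ ↔ ∃ g : G, g ∉ scalarSub ρ ∧ commSub g = A := by
  simp [commSet]

theorem fiber_eq (hinj : Function.Injective ρ) {A : Subgroup G} (hA : A ∈ commSet ρ) (x : G) :
    (x ∉ scalarSub ρ ∧ commSub x = A) ↔ (x ∈ A ∧ x ∉ scalarSub ρ) := by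
  obtain ⟨g, hg, rfl⟩ := mem_commSet.mp hA
  constructor
  · rintro ⟨h1, h2⟩
    exact ⟨h2 ▸ self_mem_commSub x, h1⟩
  · rintro ⟨h1, h2⟩
    exact ⟨h2, commSub_eq_of_mem hinj hg h1 h2⟩

theorem scalarSub_le_of_mem (hinj : Function.Injective ρ) {A : Subgroup G}
    (hA : A ∈ commSet ρ) : scalarSub ρ ≤ A := by
  obtain ⟨g, hg, rfl⟩ := mem_commSet.mp hA
  exact scalarSub_le_commSub hinj g

theorem card_fiber [Fintype G] (hinj : Function.Injective ρ) {A : Subgroup G}
    (hA : A ∈ commSet ρ) :
    ((Finset.univ.filter fun x : G => x ∉ scalarSub ρ ∧ commSub x = A).card : ℤ) =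
      Nat.card A - Nat.card (scalarSub ρ) := by
  have h1 : (Finset.univ.filter fun x : G => x ∉ scalarSub ρ ∧ commSub x = A) =
      (Finset.univ.filter fun x : G => x ∈ A) \
        (Finset.univ.filter fun x : G => x ∈ scalarSub ρ) := by
    ext x
    simp [fiber_eq hinj hA x]
  have h2 : (Finset.univ.filter fun x : G => x ∈ scalarSub ρ) ⊆
      (Finset.univ.filter fun x : G => x ∈ A) := by
    intro x hx
    simp only [Finset.mem_filter, Finset.mem_univ, true_and] at hx ⊢
    exact scalarSub_le_of_mem hinj hA hx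
  rw [h1, Finset.card_sdiff_of_subset h2, Nat.cast_sub (Finset.card_le_card h2)]
  simp [Nat.card_eq_fintype_card, Fintype.card_subtype]

theorem smul_commSub (t : ConjAct G) (g : G) : t • commSub g = commSub (t • g) := by
  ext x
  rw [Subgroup.mem_pointwise_smul_iff_inv_smul_mem, commSub, commSub,
    Subgroup.mem_centralizer_singleton_iff, Subgroup.mem_centralizer_singleton_iff,
    ← (MulAction.injective t).eq_iff, smul_mul', smul_mul', smul_inv_smul]

theorem trace_det_smul (ρ : G →* GL (Fin 2) k) (t : ConjAct G) (g : G) :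
    (mat ρ (t • g)).trace = (mat ρ g).trace ∧ (mat ρ (t • g)).det = (mat ρ g).det := by
  rw [ConjAct.smul_def]
  simp only [mat, map_mul, map_inv, Units.val_mul]
  constructor
  · rw [Matrix.trace_mul_cycle, ← Units.val_mul, inv_mul_cancel, Units.val_one, one_mul]
  · rw [Matrix.det_units_conj]

theorem smul_not_scalar (t : ConjAct G) {g : G} (hg : g ∉ scalarSub ρ) :
    t • g ∉ scalarSub ρ := by
  intro h
  apply hg
  obtain ⟨c, hc⟩ := h
  refine ⟨c, ?_⟩
  have h1 : g = (ConjAct.ofConjAct t)⁻¹ * (t • g) * ConjAct.ofConjAct t := by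
    rw [ConjAct.smul_def]; group
  rw [h1, mat_mul, mat_mul, hc, mul_smul_comm, smul_mul_assoc, mul_one, ← mat_mul]
  simp [mat_one]

theorem smul_mem_commSet (t : ConjAct G) {A : Subgroup G} (hA : A ∈ commSet ρ) :
    t • A ∈ commSet ρ := by
  obtain ⟨g, hg, rfl⟩ := mem_commSet.mp hA
  exact mem_commSet.mpr ⟨t • g, smul_not_scalar t hg, (smul_commSub t g).symm⟩

variable (ρ) in
/-- A commutant of an element with separable characteristic polynomial. -/
def IsTorusSub (A : Subgroup G) : Prop :=
  ∃ g : G, g ∉ scalarSub ρ ∧ disc2 (mat ρ g) ≠ 0 ∧ commSub g = A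

theorem isTorusSub_commSub_iff (hinj : Function.Injective ρ) {g : G} (hg : g ∉ scalarSub ρ) :
    IsTorusSub ρ (commSub g) ↔ disc2 (mat ρ g) ≠ 0 := by
  constructor
  · rintro ⟨x, hx, hd, he⟩ h0
    exact hd ((disc2_ne_zero_of_mem hinj hg (he ▸ self_mem_commSub x) hx).mpr h0)
  · exact fun h => ⟨g, hg, h, rfl⟩

theorem isTorusSub_smul_iff (hinj : Function.Injective ρ) (t : ConjAct G) {A : Subgroup G}
    (hA : A ∈ commSet ρ) : IsTorusSub ρ (t • A) ↔ IsTorusSub ρ A := by
  obtain ⟨g, hg, rfl⟩ := mem_commSet.mp hA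
  rw [smul_commSub, isTorusSub_commSub_iff hinj (smul_not_scalar t hg),
    isTorusSub_commSub_iff hinj hg, disc2, disc2, (trace_det_smul ρ t g).1,
    (trace_det_smul ρ t g).2]

/-- At most two commuting elements share trace and determinant with distinct eigenvalues. -/
theorem card_same_charpoly_le [Fintype G] (hinj : Function.Injective ρ) (h2 : (2 : k) ≠ 0)
    {g : G} (hg : disc2 (mat ρ g) ≠ 0) (v : k × k) :
    (Finset.univ.filter fun x : G =>
      x ∈ commSub g ∧ ((mat ρ x).trace, (mat ρ x).det) = v).card ≤ 2 := by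
  have hgs : g ∉ scalarSub ρ := fun h => hg (disc2_eq_zero_of_isScalar2 h)
  set s := Finset.univ.filter fun x : G =>
      x ∈ commSub g ∧ ((mat ρ x).trace, (mat ρ x).det) = v with hs
  by_contra hlt
  obtain ⟨a, b, c, ha, hb, hc, hab, hac, hbc⟩ := Finset.two_lt_card_iff.mp (not_le.mp hlt)
  simp only [hs, Finset.mem_filter, Finset.mem_univ, true_and] at ha hb hc
  obtain ⟨x1, y1, e1⟩ := exists_affine hinj hgs ha.1
  obtain ⟨x2, y2, e2⟩ := exists_affine hinj hgs hb.1
  obtain ⟨x3, y3, e3⟩ := exists_affine hinj hgs hc.1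
  have key : ∀ (x : G) (a' b' : k), ((mat ρ x).trace, (mat ρ x).det) = v →
      mat ρ x = a' • 1 + b' • mat ρ g →
      b' ^ 2 * disc2 (mat ρ g) = v.1 ^ 2 - 4 * v.2 ∧ a' = (v.1 - b' * (mat ρ g).trace) / 2 := by
    intro x a' b' hv he
    constructor
    · rw [← disc2_affine, ← he, disc2, ← hv]
    · rw [← hv]
      simp only
      rw [he, trace_affine]
      field_simp
      ring
  obtain ⟨k1, l1⟩ := key a x1 y1 ha.2 e1
  obtain ⟨k2, l2⟩ := key b x2 y2 hb.2 e2
  obtain ⟨k3, l3⟩ := key c x3 y3 hc.2 e3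
  have d12 : y1 ≠ y2 := fun h => hab (hinj (Units.ext (by
    change mat ρ a = mat ρ b; rw [e1, e2, l1, l2, h])))
  have d13 : y1 ≠ y3 := fun h => hac (hinj (Units.ext (by
    change mat ρ a = mat ρ c; rw [e1, e3, l1, l3, h])))
  have d23 : y2 ≠ y3 := fun h => hbc (hinj (Units.ext (by
    change mat ρ b = mat ρ c; rw [e2, e3, l2, l3, h])))
  have q2 : y1 ^ 2 = y2 ^ 2 := mul_right_cancel₀ hg (k1.trans k2.symm)
  have q3 : y1 ^ 2 = y3 ^ 2 := mul_right_cancel₀ hg (k1.trans k3.symm)
  rcases sq_eq_sq_iff_eq_or_eq_neg.mp q2 with h | h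
  · exact d12 h
  rcases sq_eq_sq_iff_eq_or_eq_neg.mp q3 with h' | h'
  · exact d13 h'
  · exact d23 (neg_injective (h ▸ h'))

/-- The stabiliser of a torus is at most twice as large. -/
theorem card_stabilizer_le (hinj : Function.Injective ρ) (h2 : (2 : k) ≠ 0) {g : G}
    (hg : disc2 (mat ρ g) ≠ 0) :
    Nat.card (MulAction.stabilizer (ConjAct G) (commSub g)) ≤ 2 * Nat.card (commSub g) := by
  have := Fintype.ofFinite G
  set N := MulAction.stabilizer (ConjAct G) (commSub g) with hN
  let f : N → G := fun t => (t : ConjAct G) • g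
  have himg : (Finset.univ.image f).card ≤ 2 := by
    refine le_trans (Finset.card_le_card fun x hx => ?_)
      (card_same_charpoly_le hinj h2 hg ((mat ρ g).trace, (mat ρ g).det))
    obtain ⟨t, -, rfl⟩ := Finset.mem_image.mp hx
    simp only [Finset.mem_filter, Finset.mem_univ, true_and, f]
    refine ⟨?_, ?_⟩
    · have := Subgroup.smul_mem_pointwise_smul g (t : ConjAct G) _ (self_mem_commSub g)
      rwa [MulAction.mem_stabilizer_iff.mp t.2] at this
    · rw [(trace_det_smul ρ (t : ConjAct G) g).1, (trace_det_smul ρ (t : ConjAct G) g).2]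
  rw [Nat.card_eq_fintype_card, ← Finset.card_univ]
  refine le_trans (Finset.card_le_mul_card_image _ (Nat.card (commSub g)) fun x hx => ?_)
    (by rw [mul_comm]; exact Nat.mul_le_mul_right _ himg)
  obtain ⟨t₀, -, rfl⟩ := Finset.mem_image.mp hx
  rw [Nat.card_eq_fintype_card, ← Finset.card_univ (α := commSub g)]
  refine Finset.card_le_card_of_injOn
    (fun t => if h : ConjAct.ofConjAct ((t₀ : ConjAct G)⁻¹ * (t : ConjAct G)) ∈ commSub g
      then (⟨_, h⟩ : commSub g) else 1) (fun _ _ => Finset.mem_coe.mpr (Finset.mem_univ _)) ?_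
  intro a ha b hb hab
  have mem : ∀ t : N, f t = f t₀ →
      ConjAct.ofConjAct ((t₀ : ConjAct G)⁻¹ * (t : ConjAct G)) ∈ commSub g := by
    intro t ht
    have h1 : ((t₀ : ConjAct G)⁻¹ * (t : ConjAct G)) • g = g := by
      rw [mul_smul]; exact inv_smul_eq_iff.mpr ht
    rw [ConjAct.smul_def] at h1
    rw [commSub, Subgroup.mem_centralizer_singleton_iff]
    exact mul_inv_eq_iff_eq_mul.mp h1
  have ha' := mem a (Finset.mem_filter.mp ha).2
  have hb' := mem b (Finset.mem_filter.mp hb).2
  simp only [dif_pos ha', dif_pos hb', Subtype.mk.injEq, EmbeddingLike.apply_eq_iff_eq,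
    mul_right_inj] at hab
  exact Subtype.ext hab

end FLTAgent.DS
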