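import Fermat.Agent.DS.GroupBound

/-!
# The group bound of Deligne–Serre

`card_le_groupBound`: a semisimple subgroup of `GL₂(k)`, `k` finite of characteristic
`ℓ > groupBound M`, in which all but an eighth of the elements have their trace and determinant
in a set of at most `M` pairs, has order at most `groupBound M`. Torus centralisers are bounded
by `torus_bound`; semisimplicity gives either none or at least two unipotent centralisers, and
the class equation modulo the group order excludes the latter for large `ℓ`.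
-/

set_option autoImplicit false
set_option linter.unusedSectionVars false

noncomputable section

open scoped Classical Pointwise
open Finset

namespace FLTAgent.DS

variable {G : Type*} [Group G] [Finite G] {k : Type*} [Field k] {ρ : G →* GL (Fin 2) k}

variable (ρ) in
/-- The trace and determinant of an element. -/
def trDet (g : G) : k × k := ((mat ρ g).trace, (mat ρ g).det)

theorem card_smul (t : ConjAct G) (A : Subgroup G) :
    Nat.card (t • A : Subgroup G) = Nat.card A :=
  (Nat.card_congr (Subgroup.equivSMul t A).toEquiv).symm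

theorem two_mul_card_scalarSub_le (hinj : Function.Injective ρ) {A : Subgroup G}
    (hA : A ∈ commSet ρ) : 2 * Nat.card (scalarSub ρ) ≤ Nat.card A := by
  obtain ⟨m, hm⟩ := Subgroup.card_dvd_of_le (scalarSub_le_of_mem hinj hA)
  rcases m with _ | _ | m
  · exact absurd hm (by simpa using (Nat.card_pos (α := A)).ne')
  · exfalso
    obtain ⟨g, hg, rfl⟩ := mem_commSet.mp hA
    have := Subgroup.eq_of_le_of_card_ge (scalarSub_le_of_mem hinj hA) (by simp [hm])
    exact hg (this ▸ self_mem_commSub g)
  · rw [hm]; nlinarith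

/-- A torus in a group with few characteristic polynomials is small. -/
theorem torus_bound (hinj : Function.Injective ρ) (h2 : (2 : k) ≠ 0) (S : Finset (k × k))
    {M : ℕ} (hS : S.card ≤ M) (hbad : 8 * Nat.card {g : G // trDet ρ g ∉ S} ≤ Nat.card G)
    {g : G} (hg : disc2 (mat ρ g) ≠ 0) :
    Nat.card (commSub g) ≤ 8 * M ∧
      Nat.card (MulAction.stabilizer (ConjAct G) (commSub g)) ≤ 16 * M := by
  have := Fintype.ofFinite G
  have hgs : g ∉ scalarSub ρ := fun h => hg (disc2_eq_zero_of_isScalar2 h)
  have hA : commSub g ∈ commSet ρ := mem_commSet.mpr ⟨g, hgs, rfl⟩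
  set O := (MulAction.orbit (ConjAct G) (commSub g)).toFinset with hO
  set N := Nat.card (MulAction.stabilizer (ConjAct G) (commSub g)) with hN
  set a := Nat.card (commSub g) with ha
  set z := Nat.card (scalarSub ρ) with hz
  have horb : O.card * N = Nat.card G := by
    have h1 := (MulAction.stabilizer (ConjAct G) (commSub g)).index_mul_card
    rw [MulAction.index_stabilizer] at h1
    rw [hO, ← Set.ncard_eq_toFinset_card', hN, h1]
    exact Nat.card_congr ConjAct.ofConjAct.toEquiv
  have hfib : ∀ B ∈ O, (a : ℤ) - z ≤ 2 * M +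
      (((Finset.univ.filter fun x : G => trDet ρ x ∉ S).filter
        fun x => x ∉ scalarSub ρ ∧ commSub x = B).card : ℤ) := by
    intro B hB
    obtain ⟨t, rfl⟩ := Set.mem_toFinset.mp hB
    have h1 : ((Finset.univ.filter fun x : G => x ∉ scalarSub ρ ∧
        commSub x = t • commSub g).card : ℤ) = (a : ℤ) - z := by
      rw [card_fiber hinj (smul_mem_commSet t hA), card_smul]
    have h3 : disc2 (mat ρ (t • g)) ≠ 0 := by
      rwa [disc2, (trace_det_smul ρ t g).1, (trace_det_smul ρ t g).2]
    have h2' : ((Finset.univ.filter fun x : G => x ∉ scalarSub ρ ∧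
        commSub x = t • commSub g).filter fun x => trDet ρ x ∈ S).card ≤ 2 * M := by
      refine le_trans (Finset.card_le_mul_card_image_of_maps_to (f := trDet ρ) (t := S)
        (fun x hx => (Finset.mem_filter.mp hx).2) 2 fun v _ => ?_) (Nat.mul_le_mul_left 2 hS)
      refine le_trans (Finset.card_le_card fun x hx => ?_) (card_same_charpoly_le hinj h2 h3 v)
      simp only [Finset.mem_filter, Finset.mem_univ, true_and] at hx ⊢
      refine ⟨?_, hx.2⟩
      rw [← smul_commSub, ← hx.1.1.2]
      exact self_mem_commSub x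
    rw [← h1, ← Finset.card_filter_add_card_filter_not (fun x => trDet ρ x ∈ S)]
    push_cast
    refine add_le_add (by exact_mod_cast h2') (le_of_eq ?_)
    congr 2
    ext x
    simp only [Finset.mem_filter, Finset.mem_univ, true_and]
    tauto
  have hsum : (O.card : ℤ) * ((a : ℤ) - z) ≤
      2 * M * O.card + Nat.card {g : G // trDet ρ g ∉ S} := by
    have h1 := Finset.sum_le_sum hfib
    rw [Finset.sum_const, nsmul_eq_mul, Finset.sum_add_distrib, Finset.sum_const,
      nsmul_eq_mul] at h1
    refine h1.trans (add_le_add (le_of_eq (by ring)) ?_)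
    rw [← Nat.cast_sum]
    norm_cast
    rw [Nat.card_eq_fintype_card, Fintype.card_subtype, ← Finset.card_biUnion]
    · refine Finset.card_le_card fun x hx => ?_
      simp only [Finset.mem_biUnion, Finset.mem_filter, Finset.mem_univ, true_and] at hx ⊢
      exact hx.choose_spec.2.1
    · intro B _ C _ hBC
      simp only [Function.onFun, Finset.disjoint_left, Finset.mem_filter]
      exact fun x hx hx' => hBC (hx.2.2.symm.trans hx'.2.2)
  have hOpos : 0 < O.card := by
    rw [hO]
    exact Finset.card_pos.mpr ⟨commSub g, Set.mem_toFinset.mpr (MulAction.mem_orbit_self _)⟩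
  have hkey : (8 : ℤ) * (a - z) ≤ 16 * M + N := by
    refine le_of_mul_le_mul_left ?_ (by exact_mod_cast hOpos : (0 : ℤ) < O.card)
    have : (8 : ℤ) * Nat.card {g : G // trDet ρ g ∉ S} ≤ O.card * N := by
      exact_mod_cast horb ▸ hbad
    linarith [hsum]
  have hN2 : N ≤ 2 * a := card_stabilizer_le hinj h2 hg
  have hz2 : 2 * z ≤ a := two_mul_card_scalarSub_le hinj hA
  omega

/-- A sufficient bound. -/
def groupBound (M : ℕ) : ℕ := 16 * M * (16 * M).factorial + 2

theorem exists_mem_orderEll [Finite k] {ℓ : ℕ} [Fact ℓ.Prime] [CharP k ℓ] (h2 : (2 : k) ≠ 0)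
    (hinj : Function.Injective ρ) {g : G} (hg : g ∉ scalarSub ρ) (hd : disc2 (mat ρ g) = 0) :
    ∃ u ∈ commSub g, u ∉ scalarSub ρ ∧ u ^ ℓ = 1 := by
  have := Fintype.ofFinite k
  set m := mat ρ g with hm
  set μ := m.trace / 2 with hμ
  have hμ0 : μ ≠ 0 := ne_zero_of_scalar_part h2 hd (det_mat_ne_zero ρ g)
  have hN : nilPart m * nilPart m = 0 := nilPart_mul_self h2 hd
  set q := Fintype.card k with hq
  have hq1 : 1 < q := Fintype.one_lt_card
  have hu : mat ρ (g ^ (q - 1)) = (1 : k) • 1 + (-(1 / μ)) • nilPart m := by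
    rw [mat_pow, ← hm]
    conv_lhs => rw [nilPart_add_scalar m, ← hμ]
    rw [pow_of_sq_zero hN, FiniteField.pow_card_sub_one_eq_one μ hμ0]
    congr 2
    rw [Nat.cast_sub hq1.le, FiniteField.cast_card_eq_zero, Nat.cast_one, zero_sub]
    have : μ ^ (q - 1 - 1) * μ = 1 := by
      rw [← pow_succ, show q - 1 - 1 + 1 = q - 1 by omega,
        FiniteField.pow_card_sub_one_eq_one μ hμ0]
    rw [eq_neg_iff_add_eq_zero]
    field_simp
    linear_combination -this
  refine ⟨g ^ (q - 1), pow_mem (self_mem_commSub g) _, ?_, ?_⟩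
  · intro hs
    apply hg
    rw [mem_scalarSub, hu] at hs
    rw [mem_scalarSub, ← hm]
    obtain ⟨c, hc⟩ := hs
    refine ⟨μ + -μ * (c - 1), ?_⟩
    have h3 : (-(1 / μ)) • nilPart m = (c - 1) • 1 := by
      rw [sub_smul, ← hc]; simp
    have h4 : nilPart m = (-μ * (c - 1)) • (1 : Matrix (Fin 2) (Fin 2) k) := by
      rw [mul_smul, ← h3, smul_smul]
      field_simp
      simp
    rw [add_smul, ← h4]
    exact nilPart_add_scalar m
  · apply hinj
    rw [map_one]
    refine Units.ext ?_
    change mat ρ ((g ^ (q - 1)) ^ ℓ) = 1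
    rw [mat_pow, hu, pow_of_sq_zero (by rw [smul_mul_smul_comm, hN, smul_zero]), one_pow,
      CharP.cast_eq_zero, zero_mul, zero_smul, add_zero, one_smul]

theorem smul_card_le [Finite k] {ℓ : ℕ} [Fact ℓ.Prime] [CharP k ℓ] (h2 : (2 : k) ≠ 0)
    (hinj : Function.Injective ρ) {A : Subgroup G} (hA : A ∈ commSet ρ)
    (hnT : ¬ IsTorusSub ρ A) : ℓ * Nat.card (scalarSub ρ) ≤ Nat.card A := by
  obtain ⟨g, hg, rfl⟩ := mem_commSet.mp hA
  rw [isTorusSub_commSub_iff hinj hg, not_not] at hnT
  obtain ⟨u, huA, hus, hu⟩ := exists_mem_orderEll (ℓ := ℓ) h2 hinj hg hnT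
  have hu1 : u ≠ 1 := fun h => hus (h ▸ one_mem _)
  have hord : orderOf u = ℓ := orderOf_eq_prime hu hu1
  have hH : Nat.card (Subgroup.zpowers u) = ℓ := by rw [Nat.card_zpowers, hord]
  have : Fact (Nat.card (Subgroup.zpowers u)).Prime := ⟨hH ▸ Fact.out⟩
  have hdisj : Disjoint (Subgroup.zpowers u) (scalarSub ρ) := by
    rcases ((scalarSub ρ).subgroupOf
        (Subgroup.zpowers u)).eq_bot_or_eq_top_of_prime_card with h | h
    · rw [Subgroup.subgroupOf_eq_bot] at h
      exact h.symm
    · rw [Subgroup.subgroupOf_eq_top] at h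
      exact absurd (h (Subgroup.mem_zpowers u)) hus
  let f : Subgroup.zpowers u × scalarSub ρ → commSub g := fun p =>
    ⟨(p.1 : G) * p.2, mul_mem ((Subgroup.zpowers_le.mpr huA) p.1.2)
      (scalarSub_le_commSub hinj g p.2.2)⟩
  have hf : Function.Injective f := fun p q h =>
    Subgroup.mul_injective_of_disjoint hdisj (congrArg Subtype.val h)
  have := Nat.card_le_card_of_injective f hf
  rwa [Nat.card_prod, hH] at this

/-- The stabiliser of a unipotent commutant is at most a bounded multiple of it. -/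
theorem stabilizer_dvd [Finite k] {ℓ : ℕ} [Fact ℓ.Prime] [CharP k ℓ] (h2 : (2 : k) ≠ 0)
    (hinj : Function.Injective ρ) {g : G} (hg : g ∉ scalarSub ρ) (hd : disc2 (mat ρ g) = 0)
    {B : ℕ} (hB : ∀ x : G, disc2 (mat ρ x) ≠ 0 → Nat.card (commSub x) ≤ B) :
    Nat.card (MulAction.stabilizer (ConjAct G) (commSub g)) ∣
      B.factorial * Nat.card (commSub g) := by
  set N := MulAction.stabilizer (ConjAct G) (commSub g) with hNdef
  set m := mat ρ g with hm
  have hm' : ¬ IsScalar2 m := hg
  have hnil0 : nilPart m ≠ 0 := fun h => hm' ⟨m.trace / 2, by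
    conv_lhs => rw [nilPart_add_scalar m, h, add_zero]⟩
  have hex : ∀ t : N, ∃ y : k, mat ρ ((t : ConjAct G) • g) - (m.trace / 2) • 1 = y • nilPart m := by
    intro t
    have hmem : (t : ConjAct G) • g ∈ commSub g := by
      have := Subgroup.smul_mem_pointwise_smul g (t : ConjAct G) _ (self_mem_commSub g)
      rwa [MulAction.mem_stabilizer_iff.mp t.2] at this
    obtain ⟨x, y, hxy⟩ := exists_affine hinj hg hmem
    have htr := (trace_det_smul ρ (t : ConjAct G) g).1
    rw [hxy, trace_affine, ← hm] at htr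
    refine ⟨y, ?_⟩
    rw [hxy, ← hm, nilPart, smul_sub, smul_smul]
    have : x = m.trace / 2 - y * (m.trace / 2) := by
      field_simp
      linear_combination htr
    rw [this, sub_smul]
    abel
  choose c hc using hex
  have cuniq : ∀ a b : k, a • nilPart m = b • nilPart m → a = b := fun a b h =>
    smul_left_injective k hnil0 h
  have hmul : ∀ s t : N, c (s * t) = c s * c t := by
    intro s t
    refine cuniq _ _ ?_
    rw [← hc, Subgroup.coe_mul, mul_smul, mul_comm (c s), ← smul_smul, ← hc, smul_sub]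
    set n := ConjAct.ofConjAct (s : ConjAct G) with hn
    have e : ∀ x : G, mat ρ ((s : ConjAct G) • x) = mat ρ n * mat ρ x * mat ρ n⁻¹ := by
      intro x; rw [ConjAct.smul_def, ← hn, mat_mul, mat_mul]
    have en : mat ρ n * mat ρ n⁻¹ = 1 := by rw [← mat_mul]; simp [mat_one]
    have ht : mat ρ ((t : ConjAct G) • g) =
        (m.trace / 2) • 1 + c t • (m - (m.trace / 2) • 1) := by
      rw [← nilPart, ← hc]; abel
    rw [e, e, ← hm, ht]
    simp only [mul_add, add_mul, mul_sub, sub_mul, mul_smul_comm, smul_mul_assoc, mul_one, en,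
      smul_sub]
    abel
  have hone : c 1 = 1 := by
    refine cuniq _ _ ?_
    rw [← hc, one_smul, Subgroup.coe_one, one_smul]
    rfl
  let χ : N →* k := { toFun := c, map_one' := hone, map_mul' := hmul }
  let χu : N →* kˣ := χ.toHomUnits
  have hker : Nat.card χu.ker ∣ Nat.card (commSub g) := by
    let j : N →* G := (ConjAct.ofConjAct.toMonoidHom).comp N.subtype
    have hj : Function.Injective j :=
      ConjAct.ofConjAct.injective.comp Subtype.val_injective
    have hle : χu.ker.map j ≤ commSub g := by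
      rintro _ ⟨t, ht, rfl⟩
      have h1 : c t = 1 := congrArg Units.val ht
      have h2' := hc t
      rw [h1, one_smul, nilPart, sub_left_inj] at h2'
      have h3 : (t : ConjAct G) • g = g := hinj (Units.ext h2')
      rw [ConjAct.smul_def] at h3
      rw [commSub, Subgroup.mem_centralizer_singleton_iff]
      exact mul_inv_eq_iff_eq_mul.mp h3
    have := Subgroup.card_dvd_of_le hle
    rwa [Nat.card_congr (χu.ker.equivMapOfInjective j hj).toEquiv]
  have hrange : Nat.card χu.range ∣ B.factorial := by
    have : Fintype k := Fintype.ofFinite k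
    obtain ⟨⟨y, t, rfl⟩, hy⟩ := IsCyclic.exists_generator (α := χu.range)
    have hcard : Nat.card χu.range = orderOf (χu t) := by
      rw [← orderOf_eq_card_of_forall_mem_zpowers hy, ← Subgroup.orderOf_coe]
    rw [hcard]
    by_cases h1 : χu t = 1
    · rw [h1, orderOf_one]; exact one_dvd _
    set n := ConjAct.ofConjAct (t : ConjAct G) with hn
    have hdn : disc2 (mat ρ n) ≠ 0 := by
      intro h0
      apply h1
      have hnl : IsScalar2 (mat ρ (n ^ ℓ)) := by
        refine ⟨((mat ρ n).trace / 2) ^ ℓ, ?_⟩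
        rw [mat_pow]
        conv_lhs => rw [nilPart_add_scalar (mat ρ n)]
        rw [pow_of_sq_zero (nilPart_mul_self h2 h0), CharP.cast_eq_zero, zero_mul, zero_smul,
          add_zero]
      have hfix : ((t ^ ℓ : N) : ConjAct G) • g = g := by
        rw [Subgroup.coe_pow, ConjAct.smul_def, map_pow, ← hn, mul_inv_eq_iff_eq_mul]
        exact hinj (Units.ext (by
          change mat ρ (n ^ ℓ * g) = mat ρ (g * n ^ ℓ)
          obtain ⟨e, he⟩ := hnl
          rw [mat_mul, mat_mul, he]
          simp))
      have hcl : c (t ^ ℓ) = 1 := by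
        refine cuniq _ _ ?_
        rw [← hc, hfix, one_smul]
        rfl
      have : (χ t) ^ ℓ = 1 ^ ℓ := by
        rw [one_pow, ← map_pow]; exact hcl
      exact Units.ext (frobenius_inj k ℓ this)
    have hle : orderOf (χu t) ≤ B := by
      have h2' : orderOf (χu t) ∣ orderOf n := by
        refine (orderOf_map_dvd χu t).trans (dvd_of_eq ?_)
        rw [hn, ← orderOf_submonoid, ← orderOf_injective ConjAct.ofConjAct.toMonoidHom
          ConjAct.ofConjAct.injective]
        rfl
      refine (Nat.le_of_dvd (orderOf_pos n) h2').trans (le_trans ?_ (hB n hdn))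
      exact Subgroup.orderOf_le_card (commSub n) (Set.toFinite _) (self_mem_commSub n)
    exact Nat.dvd_factorial (orderOf_pos _) hle
  rw [← χu.ker.index_mul_card, Subgroup.index_ker]
  exact Nat.mul_dvd_mul hrange hker

theorem eq_smul_of_ker {N : Matrix (Fin 2) (Fin 2) k} (hN : N ≠ 0) {v w : Fin 2 → k}
    (hv0 : v ≠ 0) (hv : N.mulVec v = 0) (hw : N.mulVec w = 0) : ∃ c : k, w = c • v := by
  by_cases hd : v 0 * w 1 - v 1 * w 0 = 0
  · by_cases h0 : v 0 = 0
    · have h1 : v 1 ≠ 0 := fun h1 => hv0 (by ext i; fin_cases i <;> simp [h0, h1])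
      have : w 0 = 0 := by simpa [h0, h1] using hd
      refine ⟨w 1 / v 1, ?_⟩
      ext i; fin_cases i <;> simp [h0, h1, this]
    · refine ⟨w 0 / v 0, ?_⟩
      ext i; fin_cases i <;> simp [h0]
      field_simp
      linear_combination hd
  · exfalso
    apply hN
    ext i j
    have a := congrFun hv i
    have b := congrFun hw i
    simp only [Matrix.mulVec, dotProduct, Fin.sum_univ_two, Pi.zero_apply] at a b
    have e0 : N i 0 * (v 0 * w 1 - v 1 * w 0) = 0 := by linear_combination w 1 * a - v 1 * b
    have e1 : N i 1 * (v 0 * w 1 - v 1 * w 0) = 0 := by linear_combination v 0 * b - w 0 * a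
    fin_cases j
    · simpa using (mul_eq_zero.mp e0).resolve_right hd
    · simpa using (mul_eq_zero.mp e1).resolve_right hd

/-- A semisimple group has no normal unipotent commutant. -/
theorem exists_conj_ne (hinj : Function.Injective ρ) (hss : SemisimpleTwo ρ) (h2 : (2 : k) ≠ 0)
    {g : G} (hg : g ∉ scalarSub ρ) (hd : disc2 (mat ρ g) = 0) :
    ∃ t : ConjAct G, t • commSub g ≠ commSub g := by
  by_contra hall
  push Not at hall
  set m := mat ρ g with hm
  set μ := m.trace / 2 with hμ
  set N := nilPart m with hN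
  have hN0 : N ≠ 0 := fun h => hg ⟨μ, by
    conv_lhs => rw [← hm, nilPart_add_scalar m, ← hN, h, add_zero]⟩
  have hNN : N * N = 0 := nilPart_mul_self h2 hd
  obtain ⟨v, hv0, hv⟩ : ∃ v : Fin 2 → k, v ≠ 0 ∧ N.mulVec v = 0 := by
    obtain ⟨i, j, hij⟩ : ∃ i j, N i j ≠ 0 := by
      by_contra h; push Not at h; exact hN0 (by ext i j; exact h i j)
    refine ⟨fun r => N r j, fun h => hij (congrFun h i), ?_⟩
    ext r
    exact congrFun (congrFun hNN r) j
  have hstab : ∀ x : G, ∃ c : k, (mat ρ x).mulVec v = c • v := by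
    intro x
    refine eq_smul_of_ker hN0 hv0 hv ?_
    set x' := x⁻¹ with hx'
    have hmem : ConjAct.toConjAct x' • g ∈ commSub g := by
      have := Subgroup.smul_mem_pointwise_smul g (ConjAct.toConjAct x') _ (self_mem_commSub g)
      rwa [hall] at this
    obtain ⟨a, b, hab⟩ := exists_affine hinj hg hmem
    have htr := (trace_det_smul ρ (ConjAct.toConjAct x') g).1
    rw [hab, trace_affine, ← hm] at htr
    rw [ConjAct.smul_def, ConjAct.ofConjAct_toConjAct, hx', inv_inv, mat_mul, mat_mul, ← hm]
      at hab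
    have h1 : mat ρ x * mat ρ x⁻¹ = 1 := by rw [← mat_mul]; simp [mat_one]
    have h3 : m * mat ρ x = mat ρ x * (a • 1 + b • m) := by
      rw [← hab, ← mul_assoc, ← mul_assoc, h1, one_mul]
    have h4 : a = μ - b * μ := by
      rw [hμ]; field_simp; linear_combination htr
    have h5 : N * mat ρ x = b • (mat ρ x * N) := by
      rw [hN, nilPart, sub_mul, mul_sub, smul_sub, h3, h4, ← hμ]
      simp only [mul_add, mul_smul_comm, mul_one, smul_mul_assoc, one_mul]
      module
    rw [Matrix.mulVec_mulVec, h5, Matrix.smul_mulVec, ← Matrix.mulVec_mulVec, hv,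
      Matrix.mulVec_zero, smul_zero]
  obtain ⟨w, hw, hwstab⟩ := hss v hv0 hstab
  obtain ⟨e, he⟩ := hwstab g
  change m.mulVec w = e • w at he
  have h1 : N.mulVec w = (e - μ) • w := by
    rw [hN, nilPart, Matrix.sub_mulVec, he, Matrix.smul_mulVec, Matrix.one_mulVec, sub_smul]
  have h2' : (e - μ) • ((e - μ) • w) = 0 := by
    rw [← h1, ← Matrix.mulVec_smul, ← h1, Matrix.mulVec_mulVec, hNN, Matrix.zero_mulVec]
  have h3 : N.mulVec w = 0 := by
    rcases smul_eq_zero.mp h2' with h | h
    · rw [h1, h, zero_smul]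
    · rw [h1, h]
  obtain ⟨c, hc⟩ := eq_smul_of_ker hN0 hv0 hv h3
  exact hw c hc

/-- **Deligne–Serre group bound.** -/
theorem card_le_groupBound [Finite k] {ℓ : ℕ} [Fact ℓ.Prime] [CharP k ℓ]
    (hinj : Function.Injective ρ) (hss : SemisimpleTwo ρ) (S : Finset (k × k))
    {M : ℕ} (hS : S.card ≤ M) (hbad : 8 * Nat.card {g : G // trDet ρ g ∉ S} ≤ Nat.card G)
    (hℓ : groupBound M < ℓ) : Nat.card G ≤ groupBound M := by
  have := Fintype.ofFinite G
  set n := Nat.card G with hn
  set z := Nat.card (scalarSub ρ) with hz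
  set L := (16 * M).factorial with hL
  have hMpos : 0 < M := by
    rcases Nat.eq_zero_or_pos M with hM0 | h
    · exfalso
      have hS0 : S = ∅ := Finset.card_eq_zero.mp (by omega)
      subst hS0
      have hpos : 0 < n := Nat.card_pos
      rw [Nat.card_congr (Equiv.subtypeUnivEquiv fun g : G => Finset.notMem_empty (trDet ρ g))]
        at hbad
      omega
    · exact h
  have h2 : (2 : k) ≠ 0 := by
    intro h
    have : (ℓ : ℕ) ∣ 2 := (CharP.cast_eq_zero_iff k ℓ 2).mp (by exact_mod_cast h)
    have := Nat.le_of_dvd two_pos this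
    have h2le : 2 ≤ groupBound M := Nat.le_add_left _ _
    omega
  have htor : ∀ x : G, disc2 (mat ρ x) ≠ 0 → Nat.card (commSub x) ≤ 16 * M := fun x hx =>
    le_trans (torus_bound hinj h2 S hS hbad hx).1 (by omega)
  have hzM : z ≤ 8 * M ∨ z = n ∨ ∀ A ∈ commSet ρ, ¬ IsTorusSub ρ A := by
    by_cases h : ∃ A ∈ commSet ρ, IsTorusSub ρ A
    · obtain ⟨A, hA, g, hg, hd, rfl⟩ := h
      exact Or.inl (le_trans (Nat.le_of_dvd Nat.card_pos
        (Subgroup.card_dvd_of_le (scalarSub_le_commSub hinj g)))
        (torus_bound hinj h2 S hS hbad hd).1)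
    · push Not at h
      exact Or.inr (Or.inr h)
  -- the partition of the nonscalar elements
  have hpart : ∑ A ∈ commSet ρ, ((Nat.card A : ℤ) - z) = (n : ℤ) - z := by
    have h1 := Finset.card_eq_sum_card_image commSub
      (Finset.univ.filter fun g : G => g ∉ scalarSub ρ)
    have h3 := Finset.card_filter_add_card_filter_not (s := (Finset.univ : Finset G))
      (fun g => g ∈ scalarSub ρ)
    have h4 : (Finset.univ.filter fun g : G => g ∈ scalarSub ρ).card = z := by
      rw [hz, Nat.card_eq_fintype_card, Fintype.card_subtype]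
    rw [Finset.card_univ, h4, ← Nat.card_eq_fintype_card, ← hn] at h3
    rw [show (n : ℤ) - z =
      ((Finset.univ.filter fun g : G => g ∉ scalarSub ρ).card : ℤ) by omega, h1, Nat.cast_sum]
    refine Finset.sum_congr (by rw [commSet]; congr 2; ext; simp) fun A hA => ?_
    rw [← card_fiber hinj (by simpa [commSet] using hA), Finset.filter_filter]
  set U := (commSet ρ).filter fun A => ¬ IsTorusSub ρ A with hU
  have hdvd : (n : ℤ) ∣ L * z * ((U.card : ℤ) - 1) := by
    have h1 : (n : ℤ) ∣ ∑ A : Subgroup G, (if A ∈ commSet ρ then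
        (L : ℤ) * ((Nat.card A : ℤ) - if IsTorusSub ρ A then (z : ℤ) else 0) else 0) := by
      rw [show n = Nat.card (ConjAct G) from (Nat.card_congr ConjAct.ofConjAct.toEquiv).symm]
      refine card_dvd_sum_of_stabilizer_dvd _ (fun t A => ?_) (fun A => ?_)
      · by_cases hA : A ∈ commSet ρ
        · simp only [if_pos hA, if_pos (smul_mem_commSet t hA), isTorusSub_smul_iff hinj t hA,
            card_smul]
        · rw [if_neg hA, if_neg fun h => hA (by simpa using smul_mem_commSet t⁻¹ h)]
      · split_ifs with hA hT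
        · obtain ⟨g, hg, hd, rfl⟩ := hT
          refine Dvd.dvd.mul_right (Int.natCast_dvd_natCast.mpr ?_) _
          exact Nat.dvd_factorial Nat.card_pos (torus_bound hinj h2 S hS hbad hd).2
        · obtain ⟨g, hg, rfl⟩ := mem_commSet.mp hA
          rw [isTorusSub_commSub_iff hinj hg, not_not] at hT
          rw [sub_zero, ← Nat.cast_mul, Int.natCast_dvd_natCast]
          exact stabilizer_dvd (ℓ := ℓ) h2 hinj hg hT htor
        · exact dvd_zero _
    rw [Finset.sum_ite_mem, Finset.univ_inter] at h1
    have h3 : ∑ A ∈ commSet ρ,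
        (L : ℤ) * ((Nat.card A : ℤ) - if IsTorusSub ρ A then (z : ℤ) else 0) =
        L * n + L * z * ((U.card : ℤ) - 1) := by
      have : ∀ A : Subgroup G, (Nat.card A : ℤ) - (if IsTorusSub ρ A then (z : ℤ) else 0) =
          ((Nat.card A : ℤ) - z) + (z : ℤ) * (if ¬ IsTorusSub ρ A then 1 else 0) := fun A => by
        split_ifs <;> ring
      rw [Finset.sum_congr rfl fun A _ => by rw [this A, mul_add]]
      rw [Finset.sum_add_distrib, ← Finset.mul_sum, hpart, ← Finset.mul_sum, ← Finset.mul_sum,
        Finset.sum_boole, ← hU]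
      ring
    rw [h3] at h1
    simpa using (dvd_add_right (dvd_mul_left (n : ℤ) (L : ℤ))).mp h1
  by_cases hU0 : U = ∅
  · rw [hU0, Finset.card_empty, Nat.cast_zero, zero_sub, mul_neg, mul_one, dvd_neg] at hdvd
    have h4 : n ∣ L * z := by exact_mod_cast hdvd
    by_cases hz8 : z ≤ 8 * M
    · refine (Nat.le_of_dvd (Nat.mul_pos (Nat.factorial_pos _) Nat.card_pos) h4).trans ?_
      rw [groupBound, ← hL]
      nlinarith [Nat.mul_le_mul_left L hz8]
    -- every element is scalar
    have hall : ∀ g : G, g ∈ scalarSub ρ := by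
      intro g
      by_contra hg
      have hA : commSub g ∈ commSet ρ := mem_commSet.mpr ⟨g, hg, rfl⟩
      by_cases hT : IsTorusSub ρ (commSub g)
      · obtain ⟨x, -, hd, he⟩ := hT
        exact hz8 (le_trans (Nat.le_of_dvd Nat.card_pos
          (Subgroup.card_dvd_of_le (scalarSub_le_commSub hinj x)))
          (torus_bound hinj h2 S hS hbad hd).1)
      · have : commSub g ∈ U := Finset.mem_filter.mpr ⟨hA, hT⟩
        simp [hU0] at this
    have hgood : (Finset.univ.filter fun g : G => trDet ρ g ∈ S).card ≤ M := by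
      refine le_trans (Finset.card_le_card_of_injOn (trDet ρ) (fun g hg => ?_) ?_) hS
      · simpa using hg
      · intro a _ b _ hab
        obtain ⟨x, hx⟩ := hall a
        obtain ⟨y, hy⟩ := hall b
        have := congrArg Prod.fst hab
        simp only [trDet, hx, hy] at this
        rw [Matrix.trace_smul, Matrix.trace_smul, smul_eq_mul, smul_eq_mul] at this
        have hxy : x = y := mul_right_cancel₀ (by simpa using h2) this
        exact hinj (Units.ext (by change mat ρ a = mat ρ b; rw [hx, hy, hxy]))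
    have hsplit := Finset.card_filter_add_card_filter_not (s := (Finset.univ : Finset G))
      (fun g => trDet ρ g ∈ S)
    rw [Finset.card_univ, ← Nat.card_eq_fintype_card] at hsplit
    rw [Nat.card_eq_fintype_card, Fintype.card_subtype] at hbad
    have : M ≤ groupBound M / 2 := by
      rw [groupBound, ← hL]
      have := Nat.factorial_pos (16 * M)
      rw [← hL] at this
      have : 16 * M * 1 ≤ 16 * M * L := Nat.mul_le_mul_left _ this
      omega
    omega
  · exfalso
    obtain ⟨A, hA⟩ := Finset.nonempty_iff_ne_empty.mpr hU0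
    obtain ⟨hAc, hAT⟩ := Finset.mem_filter.mp hA
    obtain ⟨g, hg, rfl⟩ := mem_commSet.mp hAc
    obtain ⟨t, ht⟩ := exists_conj_ne hinj hss h2 hg
      (by simpa [isTorusSub_commSub_iff hinj hg] using hAT)
    have hU2 : 2 ≤ U.card := Finset.one_lt_card.mpr
      ⟨_, hA, _, Finset.mem_filter.mpr
        ⟨smul_mem_commSet t hAc, by rwa [isTorusSub_smul_iff hinj t hAc]⟩, ht.symm⟩
    have hnU : (U.card : ℤ) * ((ℓ : ℤ) * z - z) ≤ n := by
      have h1 : ∑ _A ∈ U, ((ℓ : ℤ) * z - z) ≤ ∑ A ∈ U, ((Nat.card A : ℤ) - z) := by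
        refine Finset.sum_le_sum fun A hA => sub_le_sub_right ?_ _
        obtain ⟨h1, h2'⟩ := Finset.mem_filter.mp hA
        exact_mod_cast smul_card_le (ℓ := ℓ) h2 hinj h1 h2'
      rw [Finset.sum_const, nsmul_eq_mul] at h1
      refine h1.trans (le_trans (Finset.sum_le_sum_of_subset_of_nonneg (Finset.filter_subset _ _)
        fun A hA _ => ?_) (by rw [hpart]; omega))
      have := two_mul_card_scalarSub_le hinj hA
      rw [← hz] at this
      omega
    have hzpos : 0 < z := Nat.card_pos
    have hLpos : 0 < L := Nat.factorial_pos _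
    have hℓL : L + 1 < ℓ := by
      refine lt_of_le_of_lt ?_ hℓ
      rw [groupBound, ← hL]
      nlinarith
    have hpos : (0 : ℤ) < L * z * ((U.card : ℤ) - 1) := by
      have : (0 : ℤ) < (U.card : ℤ) - 1 := by omega
      positivity
    have hle := Int.le_of_dvd hpos hdvd
    have h5 : (L : ℤ) * z * ((U.card : ℤ) - 1) < U.card * ((ℓ : ℤ) * z - z) := by
      have a1 : (L : ℤ) * z * ((U.card : ℤ) - 1) ≤ (L : ℤ) * z * U.card := by
        have : (0:ℤ) ≤ L * z := by positivity
        nlinarith
      have a2 : (L : ℤ) + 1 < ℓ := by exact_mod_cast hℓL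
      have a3 : (0:ℤ) < z * U.card := by
        have : (0:ℤ) < U.card := by omega
        positivity
      nlinarith
    linarith

end FLTAgent.DS
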